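/-
S33 / INST-GOOD (architect helper113), block Adjoin.  SKELETON: the final file is
`Fermat/Agent/S33/Inst/Good/Adjoin.lean` (same namespace, same statements, no `sorry`; replace the
imports `...Good.WIP.X` by `...Good.X` as soon as `X` has landed).
-/
import Fermat.Agent.S33.Inst.Good.Setup
import Fermat.Agent.Lib.MulHecke.Frob

set_option autoImplicit false
set_option linter.style.haveILetI false

noncomputable section

namespace Fermat.Agent.S33.Inst.Good

open Polynomial IntermediateField ModularCurve AlgebraicCurve Fermat.Agent.S24 Fermat.Agent.S24.B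
  Fermat.Agent.S24.FF Fermat.Agent.S18 Fermat.Agent.S28.Export Fermat.Agent.GAL Fermat.Agent.GAL.E
  Fermat.Agent.C1 Fermat.Agent.S30

section Adjoin

/-- DESC, general form: `L'(S) ∩ L((q)) = L(S)`. -/
theorem mem_adjoin_of_coeffMap_mem {L L' : Type*} [Field L] [Field L'] (φ : L →+* L')
    (S : Set (LaurentSeries L)) (y : LaurentSeries L)
    (hy : coeffMap φ y ∈ IntermediateField.adjoin L' (coeffMap φ '' S)) :
    y ∈ IntermediateField.adjoin L S := by
  sorry

/-- an element of `k((q))` which is algebraic over `k` is constant -/
theorem exists_eq_C_of_isAlgebraic {k : Type*} [Field k] (f : LaurentSeries k)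
    (hf : IsAlgebraic k f) : ∃ c : k, f = HahnSeries.C c := by
  sorry

variable {k : Type*} [Field k] (p : ℕ) [Fact p.Prime] [CharP k p]

/-- a field generated by `𝔽_p`-rational series is stable under the coefficientwise Frobenius -/
theorem frob_mem_adjoin (S : Set (LaurentSeries k))
    (hS : ∀ s ∈ S, coeffMap (frobenius k p) s = s) {g : LaurentSeries k}
    (hg : g ∈ IntermediateField.adjoin k S) :
    coeffMap (frobenius k p) g ∈ IntermediateField.adjoin k S := by
  sorry

/-- ... and under its inverse if `k` is perfect -/
theorem exists_frob_eq_of_mem_adjoin (hk : Function.Surjective (frobenius k p))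
    (S : Set (LaurentSeries k)) (hS : ∀ s ∈ S, coeffMap (frobenius k p) s = s)
    {g : LaurentSeries k} (hg : g ∈ IntermediateField.adjoin k S) :
    ∃ g' ∈ IntermediateField.adjoin k S, coeffMap (frobenius k p) g' = g := by
  sorry

end Adjoin

end Fermat.Agent.S33.Inst.Good

end
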