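/-
S33 / INST-GOOD (architect helper113), block Arith.  SKELETON: the final file is
`Fermat/Agent/S33/Inst/Good/Arith.lean` (same namespace, same statements, no `sorry`; replace the
imports `...Good.WIP.X` by `...Good.X` as soon as `X` has landed).
-/
import Fermat.Agent.S33.Inst.Good.Setup
import Fermat.Agent.S33.Cech.Mod.Defs
import Fermat.Agent.Lib.InertiaField.Defs

set_option autoImplicit false
set_option linter.style.haveILetI false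

noncomputable section

namespace Fermat.Agent.S33.Inst.Good

open Polynomial IntermediateField ModularCurve AlgebraicCurve Fermat.Agent.S24 Fermat.Agent.S24.B
  Fermat.Agent.S24.FF Fermat.Agent.S18 Fermat.Agent.S28.Export Fermat.Agent.GAL Fermat.Agent.GAL.E
  Fermat.Agent.C1 Fermat.Agent.S30

variable {M p : ℕ} {A : ValuationSubring Kbar} {K₀ : IntermediateField ℚ Kbar} {ϖ₀ : K₀}

section Arith

theorem charP_rk (hp : p.Prime) (hA : A.LiesOverPrime p) (K₀ : IntermediateField ℚ Kbar) :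
    CharP (rk A K₀) p := by
  sorry

/-- the residue field of `A ∩ K₀` is algebraic over `𝔽_p`, hence perfect -/
theorem surjective_frobenius_rk (hp : p.Prime) (hA : A.LiesOverPrime p)
    (K₀ : IntermediateField ℚ Kbar) :
    ∀ c : rk A K₀, ∃ d : rk A K₀, d ^ p = c := by
  sorry

theorem exists_isArithP (hp : p.Prime) (hA : A.LiesOverPrime p) (h₀ : IsUnif (rA A K₀) ϖ₀) :
    ∃ (η₀ : K₀) (e : ℕ), Cech.IsArithP p (rA A K₀) ϖ₀ η₀ e := by
  sorry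

/-- the valuation of `ζ_p - 1` -/
theorem exists_j0 [NeZero p] (hp : p.Prime) (hA : A.LiesOverPrime p) (h₀ : IsUnif (rA A K₀) ϖ₀)
    (hζ : ((zetaK p : Kbarˣ) : Kbar) ∈ K₀) {η₀ : K₀} {e : ℕ}
    (hP : Cech.IsArithP p (rA A K₀) ϖ₀ η₀ e) :
    ∃ j0 : ℕ, (p - 1) * j0 = e ∧ (((zetaK p : Kbarˣ) : Kbar) - 1) / (ϖ₀ : Kbar) ^ j0 ∈ A ∧
      ((((zetaK p : Kbarˣ) : Kbar) - 1) / (ϖ₀ : Kbar) ^ j0)⁻¹ ∈ A := by
  sorry

/-- inertia acts on `ϖ₀ ^ j0` through the cyclotomic character -/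
theorem inertia_pow_j0 [NeZero p] (hp : p.Prime) (hA : A.LiesOverPrime p)
    (h₀ : IsUnif (rA A K₀) ϖ₀) {j0 : ℕ}
    (h1 : (((zetaK p : Kbarˣ) : Kbar) - 1) / (ϖ₀ : Kbar) ^ j0 ∈ A)
    (h2 : ((((zetaK p : Kbarˣ) : Kbar) - 1) / (ϖ₀ : Kbar) ^ j0)⁻¹ ∈ A)
    (s : E.GQ) (hs : s ∈ A.inertiaSubgroupIn ℚ) (hsK : ∀ x ∈ K₀, s x ∈ K₀) (a : ℕ)
    (ha : IsCyc p 1 s a) (c : ℕ) (hc : c ≡ a [MOD p]) :
    (s ((ϖ₀ : Kbar) ^ j0) - (c : Kbar) * (ϖ₀ : Kbar) ^ j0) / (ϖ₀ : Kbar) ^ (j0 + 1) ∈ A := by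
  sorry

end Arith

end Fermat.Agent.S33.Inst.Good

end
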