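/-
S33 / INST-GOOD (architect helper113), block Res.  SKELETON: the final file is
`Fermat/Agent/S33/Inst/Good/Res.lean` (same namespace, same statements, no `sorry`; replace the
imports `...Good.WIP.X` by `...Good.X` as soon as `X` has landed).
-/
import Fermat.Agent.S33.Inst.Good.Setup
import Fermat.Agent.S33.Cech.Mod.Defs
import Fermat.Agent.S33.Inst.Good.WIP.Adjoin

set_option autoImplicit false
set_option linter.style.haveILetI false

noncomputable section

namespace Fermat.Agent.S33.Inst.Good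

open Polynomial IntermediateField ModularCurve AlgebraicCurve Fermat.Agent.S24 Fermat.Agent.S24.B
  Fermat.Agent.S24.FF Fermat.Agent.S18 Fermat.Agent.S28.Export Fermat.Agent.GAL Fermat.Agent.GAL.E
  Fermat.Agent.C1 Fermat.Agent.S30

variable {M p : ℕ} {A : ValuationSubring Kbar} {K₀ : IntermediateField ℚ Kbar} {ϖ₀ : K₀}

section Res

/-- The reduction of `q`-expansions. -/
abbrev res (hg : IsGood (rA A K₀) (FK K₀ M)) : Ow hg →+* LaurentSeries (rk A K₀) := redHom hg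

variable (hg : IsGood (rA A K₀) (FK K₀ M))

theorem res_eq_zero_iff (h₀ : IsUnif (rA A K₀) ϖ₀) (z : Ow hg) :
    res hg z = 0 ↔ (z : FK K₀ M) / algebraMap K₀ (FK K₀ M) ϖ₀ ∈ Ow hg := by
  sorry

theorem algebraMap_mem_Ow_iff (c : K₀) : algebraMap K₀ (FK K₀ M) c ∈ Ow hg ↔ c ∈ rA A K₀ :=
  algebraMap_mem_gaussRing_iff hg c

theorem res_algebraMap (a : rA A K₀) :
    res hg ⟨algebraMap K₀ (FK K₀ M) (a : K₀), (algebraMap_mem_Ow_iff hg _).2 a.2⟩ =
      HahnSeries.C (IsLocalRing.residue (rA A K₀) a) := by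
  sorry

theorem exists_const_of_res_eq_C (h₀ : IsUnif (rA A K₀) ϖ₀) (z : Ow hg) (c : rk A K₀)
    (hz : res hg z = HahnSeries.C c) :
    ∃ a ∈ rA A K₀, ((z : FK K₀ M) - algebraMap K₀ (FK K₀ M) a) / algebraMap K₀ (FK K₀ M) ϖ₀ ∈
      Ow hg := by
  sorry

/-- the residue field of `A ∩ K₀` is algebraically closed in the residue field of `Ow`
(`exists_eq_C_of_isAlgebraic`) -/
theorem resConst (h₀ : IsUnif (rA A K₀) ϖ₀) : Cech.ResConst (rA A K₀) ϖ₀ (Ow hg) := by
  sorry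

/-- an element of `FK K₀ M` lies in `ϖ ^ m Ow` iff its coefficients lie in `ϖ₀ ^ m A₀` -/
theorem div_pow_mem_Ow_iff (h₀ : IsUnif (rA A K₀) ϖ₀) (m : ℕ) (z : FK K₀ M) :
    z / algebraMap K₀ (FK K₀ M) ϖ₀ ^ m ∈ Ow hg ↔
      ∀ n : ℤ, (z : LaurentSeries K₀).coeff n / ϖ₀ ^ m ∈ rA A K₀ := by
  sorry

/-- the reduction is the coefficientwise reduction -/
theorem coeff_res (h₀ : IsUnif (rA A K₀) ϖ₀) (z : Ow hg) (n : ℤ)
    (hz : ((z : FK K₀ M) : LaurentSeries K₀).coeff n ∈ rA A K₀) :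
    (res hg z).coeff n = IsLocalRing.residue (rA A K₀) ⟨_, hz⟩ := by
  sorry

end Res

end Fermat.Agent.S33.Inst.Good

end
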