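/-
S33 / INST-GOOD (architect helper113), block Stable.  SKELETON: the final file is
`Fermat/Agent/S33/Inst/Good/Stable.lean` (same namespace, same statements, no `sorry`; replace the
imports `...Good.WIP.X` by `...Good.X` as soon as `X` has landed).
-/
import Fermat.Agent.S33.Inst.Good.Setup
import Fermat.Agent.S33.Inst.Good.WIP.Adjoin
import Fermat.Agent.S33.Inst.Good.WIP.Arith
import Fermat.Agent.S33.Inst.Good.WIP.Res

set_option autoImplicit false
set_option linter.style.haveILetI false

noncomputable section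

namespace Fermat.Agent.S33.Inst.Good

open Polynomial IntermediateField ModularCurve AlgebraicCurve Fermat.Agent.S24 Fermat.Agent.S24.B
  Fermat.Agent.S24.FF Fermat.Agent.S18 Fermat.Agent.S28.Export Fermat.Agent.GAL Fermat.Agent.GAL.E
  Fermat.Agent.C1 Fermat.Agent.S30

variable {M p : ℕ} {A : ValuationSubring Kbar} {K₀ : IntermediateField ℚ Kbar} {ϖ₀ : K₀}

section Stable

variable (hg : IsGood (rA A K₀) (FK K₀ M))

/-- the residue field of `Ow` is `k(j, u)` -/
theorem range_res [NeZero M] [Fact p.Prime] (D : S28.UData M p)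
    (hu : D.u ∈ modularFunctionFieldFull M) (hℓ : (rA A K₀).LiesOverPrime p) :
    (Set.range (res hg) : Set (LaurentSeries (rk A K₀))) = bigk (rA A K₀) D hℓ := by
  sorry

theorem exists_root [NeZero M] [Fact p.Prime] (hpM : ¬ p ∣ M) (hA : A.LiesOverPrime p)
    (h : Ow hg) : ∃ γ : Ow hg, res hg γ ^ p = qExpand (rk A K₀) p (res hg h) := by
  sorry

theorem exists_frob [NeZero M] [Fact p.Prime] (hpM : ¬ p ∣ M) (hA : A.LiesOverPrime p)
    (f : Ow hg) : ∃ f' : Ow hg, qExpand (rk A K₀) p (res hg f') = res hg f ^ p := by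
  sorry

end Stable

end Fermat.Agent.S33.Inst.Good

end
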