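/-
S33 / INST-GOOD (architect helper113), block Depth1.  SKELETON: the final file is
`Fermat/Agent/S33/Inst/Good/Depth1.lean` (same namespace, same statements, no `sorry`; replace the
imports `...Good.WIP.X` by `...Good.X` as soon as `X` has landed).
-/
import Fermat.Agent.S33.Inst.Good.Setup
import Fermat.Agent.S33.Inst.Good.WIP.Adjoin
import Fermat.Agent.S33.Inst.Good.WIP.Arith
import Fermat.Agent.S33.Inst.Good.WIP.Res
import Fermat.Agent.S33.Inst.Good.WIP.Stable
import Fermat.Agent.S33.Inst.Good.WIP.Desc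

set_option autoImplicit false
set_option linter.style.haveILetI false

noncomputable section

namespace Fermat.Agent.S33.Inst.Good

open Polynomial IntermediateField ModularCurve AlgebraicCurve Fermat.Agent.S24 Fermat.Agent.S24.B
  Fermat.Agent.S24.FF Fermat.Agent.S18 Fermat.Agent.S28.Export Fermat.Agent.GAL Fermat.Agent.GAL.E
  Fermat.Agent.C1 Fermat.Agent.S30

variable {M p : ℕ} {A : ValuationSubring Kbar} {K₀ : IntermediateField ℚ Kbar} {ϖ₀ : K₀}

section Depth1

theorem depth1_core [NeZero M] [Fact p.Prime] (hpM : ¬ p ∣ M) (hA : A.LiesOverPrime p)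
    (h₀ : IsUnif (rA A K₀) ϖ₀) (hg : IsGood (rA A K₀) (FK K₀ M))
    (u : FK K₀ M) (u₁ w : FN M) (hu₁ : Cong1 A M u₁) (hw : w ≠ 0)
    (huw : tb M K₀ u = u₁ * w ^ p) :
    ∃ (c : K₀) (γ : FK K₀ M), c ≠ 0 ∧ γ ≠ 0 ∧
      (algebraMap K₀ (FK K₀ M) c * γ ^ p * u - 1) / algebraMap K₀ (FK K₀ M) ϖ₀ ∈ Ow hg := by
  sorry

end Depth1

end Fermat.Agent.S33.Inst.Good

end
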