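/-
S33 / INST-GOOD (architect helper113), block Desc.  SKELETON: the final file is
`Fermat/Agent/S33/Inst/Good/Desc.lean` (same namespace, same statements, no `sorry`; replace the
imports `...Good.WIP.X` by `...Good.X` as soon as `X` has landed).
-/
import Fermat.Agent.S33.Inst.Good.Setup
import Fermat.Agent.BAD.Bridge.HorDiv
import Fermat.Agent.BAD.Bridge.PowDesc

set_option autoImplicit false
set_option linter.style.haveILetI false

noncomputable section

namespace Fermat.Agent.S33.Inst.Good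

open Polynomial IntermediateField ModularCurve AlgebraicCurve Fermat.Agent.S24 Fermat.Agent.S24.B
  Fermat.Agent.S24.FF Fermat.Agent.S18 Fermat.Agent.S28.Export Fermat.Agent.GAL Fermat.Agent.GAL.E
  Fermat.Agent.C1 Fermat.Agent.S30

variable {M p : ℕ} {A : ValuationSubring Kbar} {K₀ : IntermediateField ℚ Kbar} {ϖ₀ : K₀}

section Desc

/-- DESC: a series over `K₀` which lies in `FN M` lies in `FK K₀ M`
(`BAD.Bridge.mem_laurentBaseChange_of_coeffMap_mem`) -/
theorem mem_FK_of_coeffMap_mem (y : LaurentSeries K₀)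
    (hy : coeffMap (algebraMap K₀ Kbar) y ∈ modularFunctionFieldBar M) : y ∈ FK K₀ M := by
  sorry

/-- an element of `FN M` with coefficients in `K₀` comes from `FK K₀ M` -/
theorem exists_tb_eq (x : FN M) (hx : ∀ n : ℤ, (x : LaurentSeries Kbar).coeff n ∈ K₀) :
    ∃ y : FK K₀ M, tb M K₀ y = x := by
  sorry

/-- copy of `BAD.Bridge.exists_const_mul_pow_of_bc_eq_pow` for a general `K₀` -/
theorem exists_const_mul_pow (n : ℕ) (hn : n ≠ 0) (y : FK K₀ M) (hy : y ≠ 0) (v : FN M)
    (hv : tb M K₀ y = v ^ n) :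
    ∃ (c : K₀) (g : FK K₀ M), c ≠ 0 ∧ g ≠ 0 ∧ y = algebraMap K₀ (FK K₀ M) c * g ^ n := by
  sorry

/-- copy of `BAD.Bridge.horDiv_of_isKum` (first half) for a general `K₀` -/
theorem dvd_ord_of_isKum [NeZero M] (n : ℕ) (u : FK K₀ M) (hu : IsKum M n (tb M K₀ u)) :
    ∀ w : Place K₀ (FK K₀ M), (n : ℤ) ∣ w.ord u := by
  sorry

theorem rootData_of_isKum [NeZero M] {x : FK K₀ M} (hx : Transcendental K₀ x) {n : ℕ}
    (hn : n ≠ 0) {u : FK K₀ M} (hu0 : u ≠ 0) (hu : IsKum M n (tb M K₀ u)) :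
    RootData (chart (⊤ : Subring K₀) x) 1 n u := by
  sorry

/-- `s ^ n * u` algebraic over `K₀` implies that `u` is an `n`-th power in `FN M` -/
theorem exists_pow_of_isAlgebraic {n : ℕ} (hn : n ≠ 0) {s u : FK K₀ M} (hs : s ≠ 0)
    (h : IsAlgebraic K₀ (s ^ n * u)) : ∃ v : FN M, tb M K₀ u = v ^ n := by
  sorry

end Desc

end Fermat.Agent.S33.Inst.Good

end
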