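/-
S33 / INST-GOOD (architect helper113), block Hecke.  SKELETON: the final file is
`Fermat/Agent/S33/Inst/Good/Hecke.lean` (same namespace, same statements, no `sorry`; replace the
imports `...Good.WIP.X` by `...Good.X` as soon as `X` has landed).
-/
import Fermat.Agent.S33.Inst.Good.Setup
import Fermat.Agent.Lib.MulHecke.Frob
import Fermat.Agent.S33.Inst.Good.WIP.Desc
import Fermat.Agent.S33.Inst.Good.WIP.Res

set_option autoImplicit false
set_option linter.style.haveILetI false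

noncomputable section

namespace Fermat.Agent.S33.Inst.Good

open Polynomial IntermediateField ModularCurve AlgebraicCurve Fermat.Agent.S24 Fermat.Agent.S24.B
  Fermat.Agent.S24.FF Fermat.Agent.S18 Fermat.Agent.S28.Export Fermat.Agent.GAL Fermat.Agent.GAL.E
  Fermat.Agent.C1 Fermat.Agent.S30

variable {M p : ℕ} {A : ValuationSubring Kbar} {K₀ : IntermediateField ℚ Kbar} {ϖ₀ : K₀}

section Hecke

variable [NeZero p]

theorem exists_T (hp : p.Prime) (hζ : ((zetaK p : Kbarˣ) : Kbar) ∈ K₀) (Hp : HeckeOp M p) :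
    ∃ T : FK K₀ M →* FK K₀ M, ∀ u : FK K₀ M, tb M K₀ (T u) = Hp.T (tb M K₀ u) := by
  sorry

theorem T_algebraMap (hp : p.Prime) (Hp : HeckeOp M p) (T : FK K₀ M →* FK K₀ M)
    (hT : ∀ u : FK K₀ M, tb M K₀ (T u) = Hp.T (tb M K₀ u)) (c : K₀) :
    T (algebraMap K₀ (FK K₀ M) c) = algebraMap K₀ (FK K₀ M) (c ^ (p + 1)) := by
  sorry

/-- formula `(*)` -/
theorem T_star (hp : p.Prime) (hA : A.LiesOverPrime p) (h₀ : IsUnif (rA A K₀) ϖ₀)
    (hg : IsGood (rA A K₀) (FK K₀ M)) (hζ : ((zetaK p : Kbarˣ) : Kbar) ∈ K₀) (Hp : HeckeOp M p)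
    (T : FK K₀ M →* FK K₀ M) (hT : ∀ u : FK K₀ M, tb M K₀ (T u) = Hp.T (tb M K₀ u))
    (m : ℕ) (hm : 1 ≤ m) (h : Ow hg) :
    ∃ h' : Ow hg, T (1 + algebraMap K₀ (FK K₀ M) ϖ₀ ^ m * (h : FK K₀ M)) =
        1 + algebraMap K₀ (FK K₀ M) ϖ₀ ^ m * (h' : FK K₀ M) ∧
      res hg h' = qExpand (rk A K₀) p (res hg h) := by
  sorry

end Hecke

end Fermat.Agent.S33.Inst.Good

end
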