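/-
S33 / INST-GOOD (architect helper113), block Sigma.  SKELETON: the final file is
`Fermat/Agent/S33/Inst/Good/Sigma.lean` (same namespace, same statements, no `sorry`; replace the
imports `...Good.WIP.X` by `...Good.X` as soon as `X` has landed).
-/
import Fermat.Agent.S33.Inst.Good.Setup
import Fermat.Agent.Lib.InertiaField.Defs
import Fermat.Agent.S33.Inst.Good.WIP.Desc
import Fermat.Agent.S33.Inst.Good.WIP.Res

set_option autoImplicit false
set_option linter.style.haveILetI false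

noncomputable section

namespace Fermat.Agent.S33.Inst.Good

open Polynomial IntermediateField ModularCurve AlgebraicCurve Fermat.Agent.S24 Fermat.Agent.S24.B
  Fermat.Agent.S24.FF Fermat.Agent.S18 Fermat.Agent.S28.Export Fermat.Agent.GAL Fermat.Agent.GAL.E
  Fermat.Agent.C1 Fermat.Agent.S30

variable {M p : ℕ} {A : ValuationSubring Kbar} {K₀ : IntermediateField ℚ Kbar} {ϖ₀ : K₀}

section Sigma

theorem exists_sigma (s : E.GQ) (hs : ∀ x ∈ K₀, s x ∈ K₀) :
    ∃ σ : FK K₀ M ≃+* FK K₀ M, ∀ u : FK K₀ M, tb M K₀ (σ u) = galF M s (tb M K₀ u) := by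
  sorry

variable (s : E.GQ) (σ : FK K₀ M ≃+* FK K₀ M)
  (hσ : ∀ u : FK K₀ M, tb M K₀ (σ u) = galF M s (tb M K₀ u))

include hσ in
theorem sigma_algebraMap (c : K₀) (hc : s c ∈ K₀) :
    σ (algebraMap K₀ (FK K₀ M) c) = algebraMap K₀ (FK K₀ M) ⟨s c, hc⟩ := by
  sorry

include hσ in
theorem sigma_xK (BD : BaseData M p) : σ (BD.xK K₀) = BD.xK K₀ := by
  sorry

include hσ in
theorem sigma_mem_Ow (hs : s ∈ A.inertiaSubgroupIn ℚ) (h₀ : IsUnif (rA A K₀) ϖ₀)
    (hg : IsGood (rA A K₀) (FK K₀ M)) : ∀ z ∈ Ow hg, σ z ∈ Ow hg := by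
  sorry

include hσ in
theorem sigma_sub_div_mem (hs : s ∈ A.inertiaSubgroupIn ℚ) (h₀ : IsUnif (rA A K₀) ϖ₀)
    (hg : IsGood (rA A K₀) (FK K₀ M)) :
    ∀ z ∈ Ow hg, (σ z - z) / algebraMap K₀ (FK K₀ M) ϖ₀ ∈ Ow hg := by
  sorry

end Sigma

end Fermat.Agent.S33.Inst.Good

end
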